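import Mathlib
import Fermat.Prelude.Def_ModularCurve_ArithmeticGalois

/-!
# ES, part B: definitions

* `MDiv K m f` : `f ≠ 0` and the divisor of `f` is divisible by `m`;
* `SameClass m φ ψ` : `ψ = φ * g ^ m` for some `g ≠ 0`;
* `mDivUnits K F m`, `Wm K F m` : the group `W_m = {f : m ∣ div f} / F^{× m}`;
* `bc L L' F₀ : F_L → F_{L'}` : the base change map (coefficientwise) between the fields
  `laurentBaseChange L F₀`.
-/

set_option autoImplicit false
set_option linter.unusedSectionVars false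

open AlgebraicCurve ModularCurve

namespace Fermat.Agent.ESlib

section general

variable (K : Type*) {F : Type*} [Field K] [Field F] [Algebra K F]

/-- `f ≠ 0` and the divisor of `f` is divisible by `m` -/
def MDiv (m : ℕ) (f : F) : Prop := f ≠ 0 ∧ ∀ v : Place K F, (m : ℤ) ∣ v.ord f

/-- `φ` and `ψ` differ by the `m`-th power of a nonzero element -/
def SameClass (m : ℕ) (φ ψ : F) : Prop := ∃ g : F, g ≠ 0 ∧ ψ = φ * g ^ m

variable {K}

theorem SameClass.refl (m : ℕ) (φ : F) : SameClass m φ φ := ⟨1, one_ne_zero, by simp⟩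

theorem SameClass.symm {m : ℕ} {φ ψ : F} (h : SameClass m φ ψ) : SameClass m ψ φ := by
  obtain ⟨g, hg, rfl⟩ := h
  refine ⟨g⁻¹, inv_ne_zero hg, ?_⟩
  rw [mul_assoc, ← mul_pow, mul_inv_cancel₀ hg, one_pow, mul_one]

theorem SameClass.trans {m : ℕ} {φ ψ χ : F} (h : SameClass m φ ψ) (h' : SameClass m ψ χ) :
    SameClass m φ χ := by
  obtain ⟨g, hg, rfl⟩ := h
  obtain ⟨g', hg', rfl⟩ := h'
  exact ⟨g * g', mul_ne_zero hg hg', by rw [mul_pow, mul_assoc]⟩

theorem SameClass.ne_zero {m : ℕ} {φ ψ : F} (h : SameClass m φ ψ) (hφ : φ ≠ 0) : ψ ≠ 0 := by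
  obtain ⟨g, hg, rfl⟩ := h
  exact mul_ne_zero hφ (pow_ne_zero _ hg)

theorem SameClass.map {F' : Type*} [Field F'] (e : F →+* F') {m : ℕ} {φ ψ : F}
    (h : SameClass m φ ψ) : SameClass m (e φ) (e ψ) := by
  obtain ⟨g, hg, rfl⟩ := h
  exact ⟨e g, (map_ne_zero e).2 hg, by rw [map_mul, map_pow]⟩

theorem MDiv.sameClass {m : ℕ} {φ ψ : F} (h : MDiv K m φ) (hc : SameClass m φ ψ) :
    MDiv K m ψ := by
  obtain ⟨g, hg, rfl⟩ := hc
  refine ⟨mul_ne_zero h.1 (pow_ne_zero _ hg), fun v => ?_⟩
  rw [v.ord_mul h.1 (pow_ne_zero _ hg), ← zpow_natCast, v.ord_zpow]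
  exact dvd_add (h.2 v) (Dvd.intro _ rfl)

variable (K F)

/-- the subgroup of `Fˣ` of the functions whose divisor is divisible by `m` -/
def mDivUnits (m : ℕ) : Subgroup Fˣ where
  carrier := {f | ∀ v : Place K F, (m : ℤ) ∣ v.ord (f : F)}
  one_mem' := fun v => by simp
  mul_mem' := by
    intro a b ha hb v
    rw [Units.val_mul, v.ord_mul a.ne_zero b.ne_zero]
    exact dvd_add (ha v) (hb v)
  inv_mem' := by
    intro a ha v
    rw [Units.val_inv_eq_inv_val, v.ord_inv]
    exact (dvd_neg).2 (ha v)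

variable {K F}

theorem mem_mDivUnits {m : ℕ} {f : Fˣ} : f ∈ mDivUnits K F m ↔ MDiv K m (f : F) :=
  ⟨fun h => ⟨f.ne_zero, h⟩, fun h => h.2⟩

variable (K F)

/-- `W_m(K, F) = {f ∈ Fˣ : m ∣ div f} / (Fˣ)^m` -/
abbrev Wm (m : ℕ) : Type _ :=
  mDivUnits K F m ⧸ ((powMonoidHom m : Fˣ →* Fˣ).range.subgroupOf (mDivUnits K F m))

end general

section bc

variable (L L' : Type*) [Field L] [Field L'] [Algebra ℚ L] [Algebra ℚ L'] [Algebra L L']
  [IsScalarTower ℚ L L']
variable (F₀ : IntermediateField ℚ (LaurentSeries ℚ))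

theorem coeffMap_coeffEmb_algebraMap (x : LaurentSeries ℚ) :
    coeffMap (algebraMap L L') (coeffEmb L x) = coeffEmb L' x := by
  rw [coeffEmb, coeffMap_coeffMap, coeffEmb, ← IsScalarTower.algebraMap_eq]

theorem coeffMap_algebraMap_algebraMap (a : L) :
    coeffMap (algebraMap L L') (algebraMap L (LaurentSeries L) a)
      = algebraMap L' (LaurentSeries L') (algebraMap L L' a) := by
  rw [algebraMap_laurentSeries_eq_single, algebraMap_laurentSeries_eq_single, coeffMap_single]

variable {L F₀} in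
theorem coeffMap_mem_laurentBaseChange' {x : LaurentSeries L} (hx : x ∈ laurentBaseChange L F₀) :
    coeffMap (algebraMap L L') x ∈ laurentBaseChange L' F₀ := by
  rw [mem_laurentBaseChange_iff] at hx
  induction hx using Subfield.closure_induction with
  | mem y hy =>
      rcases hy with ⟨a, rfl⟩ | ⟨z, hz, rfl⟩
      · rw [coeffMap_algebraMap_algebraMap]
        exact (laurentBaseChange L' F₀).algebraMap_mem _
      · rw [coeffMap_coeffEmb_algebraMap]
        exact coeffEmb_mem_laurentBaseChange L' hz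
  | one => simp
  | add x y _ _ hx hy => simpa using add_mem hx hy
  | neg x _ hx => simpa using neg_mem hx
  | inv x _ hx => simpa using inv_mem hx
  | mul x y _ _ hx hy => simpa using mul_mem hx hy

/-- the base change map `F_L → F_{L'}` -/
noncomputable def bc : laurentBaseChange L F₀ →+* laurentBaseChange L' F₀ :=
  ((coeffMap (algebraMap L L')).comp (laurentBaseChange L F₀).val.toRingHom).codRestrict
    (laurentBaseChange L' F₀).toSubfield.toSubring
    (fun x => coeffMap_mem_laurentBaseChange' L' x.2)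

@[simp]
theorem coe_bc (x : laurentBaseChange L F₀) :
    (bc L L' F₀ x : LaurentSeries L') = coeffMap (algebraMap L L') (x : LaurentSeries L) := rfl

theorem bc_injective : Function.Injective (bc L L' F₀) := (bc L L' F₀).injective

theorem bc_algebraMap (a : L) :
    bc L L' F₀ (algebraMap L (laurentBaseChange L F₀) a)
      = algebraMap L' (laurentBaseChange L' F₀) (algebraMap L L' a) :=
  Subtype.ext (coeffMap_algebraMap_algebraMap L L' a)

end bc

end Fermat.Agent.ESlib
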