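import Fermat.Agent.ES.B.Defs

/-!
# ES, part B5: an embedding `F_L → L((t))` extends to `F_{L'} → L'((t))`
-/

set_option autoImplicit false
set_option linter.unusedSectionVars false

open AlgebraicCurve ModularCurve

namespace Fermat.Agent.ESlib

section abstract

open TensorProduct

/-- Abstract form: if `L'` and `E` are linearly disjoint over `L` both in `Ω₁` (via `a`) and in `Ω₂`
(via `b`), then `a x ↦ b x` extends to an `L'`-embedding of the compositum `L'(a E)` into `Ω₂`. -/
theorem exists_extend_abstract {L L' E Ω₁ Ω₂ ι : Type*} [Field L] [Field L'] [Field E] [Field Ω₁]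
    [Field Ω₂] [Algebra L L'] [Algebra L E] [Algebra L' Ω₁] [Algebra L' Ω₂]
    (a : E →+* Ω₁) (b : E →+* Ω₂)
    (ha : ∀ c : L, a (algebraMap L E c) = algebraMap L' Ω₁ (algebraMap L L' c))
    (hb : ∀ c : L, b (algebraMap L E c) = algebraMap L' Ω₂ (algebraMap L L' c))
    (β : Module.Basis ι L L')
    (hia : ∀ m : ι →₀ E, (m.sum fun i x => algebraMap L' Ω₁ (β i) * a x) = 0 → m = 0)
    (hib : ∀ m : ι →₀ E, (m.sum fun i x => algebraMap L' Ω₂ (β i) * b x) = 0 → m = 0) :
    ∃ ε' : IntermediateField.adjoin L' (Set.range a) →ₐ[L'] Ω₂,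
      ∀ (x : E) (hx : a x ∈ IntermediateField.adjoin L' (Set.range a)), ε' ⟨a x, hx⟩ = b x := by
  classical
  let _ : Algebra L Ω₁ := ((algebraMap L' Ω₁).comp (algebraMap L L')).toAlgebra
  have : IsScalarTower L L' Ω₁ := IsScalarTower.of_algebraMap_eq fun _ => rfl
  let _ : Algebra L Ω₂ := ((algebraMap L' Ω₂).comp (algebraMap L L')).toAlgebra
  have : IsScalarTower L L' Ω₂ := IsScalarTower.of_algebraMap_eq fun _ => rfl
  let a' : E →ₐ[L] Ω₁ := { a with commutes' := ha }
  let b' : E →ₐ[L] Ω₂ := { b with commutes' := hb }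
  let α : L' ⊗[L] E →ₐ[L'] Ω₁ :=
    Algebra.TensorProduct.lift (Algebra.ofId L' Ω₁) a' (fun _ _ => Commute.all _ _)
  let γ : L' ⊗[L] E →ₐ[L'] Ω₂ :=
    Algebra.TensorProduct.lift (Algebra.ofId L' Ω₂) b' (fun _ _ => Commute.all _ _)
  have hα : ∀ (c : L') (x : E), α (c ⊗ₜ x) = algebraMap L' Ω₁ c * a x := fun c x =>
    Algebra.TensorProduct.lift_tmul _ _ _ _ _
  have hγ : ∀ (c : L') (x : E), γ (c ⊗ₜ x) = algebraMap L' Ω₂ c * b x := fun c x =>
    Algebra.TensorProduct.lift_tmul _ _ _ _ _
  let e := TensorProduct.equivFinsuppOfBasisLeft (N := E) β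
  have hαinj : Function.Injective α := by
    rw [injective_iff_map_eq_zero]
    intro z hz
    obtain ⟨m, rfl⟩ := e.symm.surjective z
    rw [TensorProduct.equivFinsuppOfBasisLeft_symm_apply, map_finsuppSum] at hz
    simp only [hα] at hz
    rw [hia m hz, map_zero]
  have hγinj : Function.Injective γ := by
    rw [injective_iff_map_eq_zero]
    intro z hz
    obtain ⟨m, rfl⟩ := e.symm.surjective z
    rw [TensorProduct.equivFinsuppOfBasisLeft_symm_apply, map_finsuppSum] at hz
    simp only [hγ] at hz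
    rw [hib m hz, map_zero]
  have : IsDomain (L' ⊗[L] E) := Function.Injective.isDomain α.toRingHom hαinj
  let α' : FractionRing (L' ⊗[L] E) →ₐ[L'] Ω₁ := IsFractionRing.liftAlgHom hαinj
  let γ' : FractionRing (L' ⊗[L] E) →ₐ[L'] Ω₂ := IsFractionRing.liftAlgHom hγinj
  have hα' : ∀ z, α' (algebraMap _ _ z) = α z := fun z => by
    rw [IsFractionRing.liftAlgHom_apply]; exact IsFractionRing.lift_algebraMap hαinj z
  have hγ' : ∀ z, γ' (algebraMap _ _ z) = γ z := fun z => by
    rw [IsFractionRing.liftAlgHom_apply]; exact IsFractionRing.lift_algebraMap hγinj z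
  have hle : (IntermediateField.adjoin L' (Set.range a)).toSubalgebra ≤ α'.range := by
    rw [← AlgHom.fieldRange_toSubalgebra, IntermediateField.toSubalgebra_le_toSubalgebra,
      IntermediateField.adjoin_le_iff]
    rintro _ ⟨x, rfl⟩
    exact ⟨algebraMap _ _ ((1 : L') ⊗ₜ[L] x), (hα' _).trans (by rw [hα, map_one, one_mul])⟩
  let eq := AlgEquiv.ofInjectiveField α'
  refine ⟨(γ'.comp eq.symm.toAlgHom).comp (Subalgebra.inclusion hle), ?_⟩
  intro x hx
  have h1 : eq (algebraMap _ _ ((1 : L') ⊗ₜ[L] x)) = Subalgebra.inclusion hle ⟨a x, hx⟩ := by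
    apply Subtype.ext
    change α' (algebraMap _ _ ((1 : L') ⊗ₜ[L] x)) = a x
    rw [hα', hα, map_one, one_mul]
  change γ' (eq.symm (Subalgebra.inclusion hle ⟨a x, hx⟩)) = b x
  rw [← h1, AlgEquiv.symm_apply_apply, hγ', hγ, map_one, one_mul]

end abstract

variable (L L' : Type*) [Field L] [Field L'] [Algebra ℚ L] [Algebra ℚ L'] [Algebra L L']
  [IsScalarTower ℚ L L']
variable (F₀ : IntermediateField ℚ (LaurentSeries ℚ))

variable {L L'} in
/-- linear disjointness of `L'` and `L((t))` inside `L'((t))` -/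
theorem eq_zero_of_sum_basis_mul_coeffMap {E ι : Type*} [Field E] (γ : E →+* LaurentSeries L)
    (β : Module.Basis ι L L') (m : ι →₀ E)
    (h : (m.sum fun i x => algebraMap L' (LaurentSeries L') (β i) *
      coeffMap (algebraMap L L') (γ x)) = 0) : m = 0 := by
  have key : ∀ n : ℤ, m.mapRange (fun x => (γ x).coeff n) (by simp) = 0 := by
    intro n
    apply linearIndependent_iff.1 β.linearIndependent
    have h1 := congrArg (fun y : LaurentSeries L' => y.coeff n) h
    simp only [Finsupp.sum, HahnSeries.coeff_sum, HahnSeries.coeff_zero,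
      algebraMap_laurentSeries_eq_single, HahnSeries.coeff_single_zero_mul, coeffMap_coeff] at h1
    rw [Finsupp.linearCombination_apply, Finsupp.sum_mapRange_index (by simp), Finsupp.sum]
    rw [← h1]
    refine Finset.sum_congr rfl fun i _ => ?_
    rw [Algebra.smul_def, mul_comm]
  ext i
  apply γ.injective
  rw [Finsupp.coe_zero, Pi.zero_apply, map_zero]
  ext n
  have := DFunLike.congr_fun (key n) i
  simpa using this

/-- **B5.** (`F_{L'} = Frac (L' ⊗_L F_L)`, and `L' ⊗_L M → L'((t))` is injective for every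
`L`-subspace `M` of `L((t))`.) -/
theorem exists_extend_emb (ε : laurentBaseChange L F₀ →ₐ[L] LaurentSeries L) :
    ∃ ε' : laurentBaseChange L' F₀ →ₐ[L'] LaurentSeries L',
      ∀ f : laurentBaseChange L F₀, ε' (bc L L' F₀ f) = coeffMap (algebraMap L L') (ε f) := by
  let a : laurentBaseChange L F₀ →+* LaurentSeries L' :=
    (coeffMap (algebraMap L L')).comp (laurentBaseChange L F₀).val.toRingHom
  let b : laurentBaseChange L F₀ →+* LaurentSeries L' :=
    (coeffMap (algebraMap L L')).comp ε.toRingHom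
  obtain ⟨ε'', hε''⟩ := exists_extend_abstract (L := L) (L' := L') a b
    (fun c => coeffMap_algebraMap_algebraMap L L' c)
    (fun c => by
      change coeffMap (algebraMap L L') (ε (algebraMap L _ c)) = _
      rw [AlgHom.commutes]
      exact coeffMap_algebraMap_algebraMap L L' c)
    (Module.Basis.ofVectorSpace L L')
    (fun m hm => eq_zero_of_sum_basis_mul_coeffMap (laurentBaseChange L F₀).val.toRingHom _ m hm)
    (fun m hm => eq_zero_of_sum_basis_mul_coeffMap ε.toRingHom _ m hm)
  have hle : laurentBaseChange L' F₀ ≤ IntermediateField.adjoin L' (Set.range a) := by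
    apply IntermediateField.adjoin.mono
    rintro _ ⟨x, hx, rfl⟩
    exact ⟨⟨coeffEmb L x, coeffEmb_mem_laurentBaseChange L hx⟩,
      coeffMap_coeffEmb_algebraMap L L' x⟩
  refine ⟨ε''.comp (IntermediateField.inclusion hle), fun f => ?_⟩
  exact hε'' f _

end Fermat.Agent.ESlib
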