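import Fermat.Agent.ES.B.Defs
import Fermat.Agent.S24.PlaceBasic

/-!
# ES, part B3: restriction of places along a field extension
-/

set_option autoImplicit false
set_option linter.unusedSectionVars false

open AlgebraicCurve ModularCurve

namespace Fermat.Agent.ESlib

section abstract

variable {K K' F F' : Type*} [Field K] [Field K'] [Field F] [Field F'] [Algebra K F]
  [Algebra K' F'] [Algebra K K']

/-- **B3a.** restriction of a place (use `S24lib.exists_place_of_valuation`) -/
theorem exists_place_restrict (e : F →+* F')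
    (he : ∀ a : K, e (algebraMap K F a) = algebraMap K' F' (algebraMap K K' a))
    (v' : Place K' F') :
    (∀ f : F, v'.ord (e f) = 0) ∨
      ∃ v : Place K F, ∃ n : ℕ, 0 < n ∧ ∀ f : F, v'.ord (e f) = n * v.ord f := by
  by_cases hnt : ∃ f : F, f ≠ 0 ∧ v'.ord (e f) ≠ 0
  · right
    obtain ⟨v, n, hn, hv⟩ := Fermat.Agent.S24lib.exists_place_of_valuation (K := K)
      (fun f : F => v'.ord (e f))
      (fun f g hf hg => by
        simp only [map_mul]
        exact v'.ord_mul ((map_ne_zero e).2 hf) ((map_ne_zero e).2 hg))
      (fun f g hf hg hfg => by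
        simp only [map_add]
        have h := Fermat.Agent.S24lib.Place.ord_add_ge v' (f := e f) (g := e g)
          (by rw [← map_add]; exact (map_ne_zero e).2 hfg)
        rcases h with h | h | h
        · exact h
        · exact absurd h ((map_ne_zero e).2 hf)
        · exact absurd h ((map_ne_zero e).2 hg))
      (fun a _ => by
        simp only [he]
        exact Fermat.Agent.S24lib.Place.ord_algebraMap v' _)
      hnt
    refine ⟨v, n, hn, fun f => ?_⟩
    by_cases hf : f = 0
    · subst hf; simp
    · exact hv f hf
  · left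
    intro f
    by_cases hf : f = 0
    · subst hf; simp
    · by_contra h
      exact hnt ⟨f, hf, h⟩

/-- **B3b.** -/
theorem MDiv.map (e : F →+* F')
    (he : ∀ a : K, e (algebraMap K F a) = algebraMap K' F' (algebraMap K K' a))
    {m : ℕ} {f : F} (h : MDiv K m f) : MDiv K' m (e f) := by
  refine ⟨(map_ne_zero e).2 h.1, fun v' => ?_⟩
  rcases exists_place_restrict e he v' with h0 | ⟨v, n, _, hv⟩
  · rw [h0]; exact dvd_zero _
  · rw [hv]; exact Dvd.dvd.mul_left (h.2 v) _

end abstract

variable (L L' : Type*) [Field L] [Field L'] [Algebra ℚ L] [Algebra ℚ L'] [Algebra L L']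
  [IsScalarTower ℚ L L']
variable (F₀ : IntermediateField ℚ (LaurentSeries ℚ))

/-- **B3.** -/
theorem mDiv_bc {m : ℕ} {f : laurentBaseChange L F₀} (h : MDiv L m f) :
    MDiv L' m (bc L L' F₀ f) :=
  MDiv.map (bc L L' F₀) (bc_algebraMap L L' F₀) h

end Fermat.Agent.ESlib
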