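import Fermat.Agent.ES.B.Taylor
import Fermat.Agent.ES.B.Extend
import Fermat.Agent.ES.B.Restrict
import Fermat.Agent.S24.Complete
import Fermat.Agent.S24.RHDeg

/-!
# ES, part B6: every place of `F_L` extends to a place of `F_{L'}` with ramification index one
-/

set_option autoImplicit false
set_option linter.unusedSectionVars false

open AlgebraicCurve ModularCurve

namespace Fermat.Agent.ESlib

variable (L L' : Type*) [Field L] [Field L'] [Algebra ℚ L] [Algebra ℚ L'] [Algebra L L']
  [IsScalarTower ℚ L L'] [IsAlgClosed L]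
variable (F₀ : IntermediateField ℚ (LaurentSeries ℚ))

omit [IsAlgClosed L] [Algebra ℚ L] [Algebra ℚ L'] [IsScalarTower ℚ L L'] in
/-- the order of a Laurent series does not change under an injective coefficient map -/
theorem order_coeffMap_of_injective {R S : Type*} [CommRing R] [CommRing S] (i : R →+* S)
    (hi : Function.Injective i) (x : LaurentSeries R) : (coeffMap i x).order = x.order := by
  by_cases hx : x = 0
  · subst hx; simp
  have hx' : coeffMap i x ≠ 0 := by
    intro h
    apply hx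
    ext k
    apply hi
    rw [← coeffMap_coeff, h]
    simp
  apply le_antisymm
  · apply HahnSeries.order_le_of_coeff_ne_zero
    rw [coeffMap_coeff]
    intro h
    exact hx (HahnSeries.coeff_order_eq_zero.1 (hi (by rw [h, map_zero])))
  · apply HahnSeries.order_le_of_coeff_ne_zero
    intro h
    apply hx'
    apply HahnSeries.coeff_order_eq_zero.1
    rw [coeffMap_coeff, h, map_zero]

/-- **B6a.** (B4 + B5 + `S24RH.exists_const` + `S24lib.exists_place_of_emb`) -/
theorem exists_place_extend (hFF : Fermat.Agent.S24RH.IsFF L (laurentBaseChange L F₀))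
    (v : Place L (laurentBaseChange L F₀)) :
    ∃ v' : Place L' (laurentBaseChange L' F₀),
      ∀ f : laurentBaseChange L F₀, v'.ord (bc L L' F₀ f) = v.ord f := by
  have : CharZero L := algebraRat.charZero L
  obtain ⟨ε, hε⟩ := exists_emb_of_place_of_const v
    (fun z hz => Fermat.Agent.S24RH.exists_const hFF v hz)
  obtain ⟨ε', hε'⟩ := exists_extend_emb L L' F₀ ε
  have hord : ∀ f : laurentBaseChange L F₀, f ≠ 0 → (ε' (bc L L' F₀ f)).order = v.ord f := by
    intro f hf
    rw [hε', order_coeffMap_of_injective _ (algebraMap L L').injective, hε f hf]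
  obtain ⟨π, hπ⟩ := Fermat.Agent.S24RH.exists_ord_eq_one v
  have hπ0 : π ≠ 0 := by
    rintro rfl
    simp at hπ
  have hbc0 : ∀ f : laurentBaseChange L F₀, f ≠ 0 → bc L L' F₀ f ≠ 0 := fun f hf =>
    (map_ne_zero (bc L L' F₀)).2 hf
  obtain ⟨v', n, hn, hv'⟩ := Fermat.Agent.S24lib.exists_place_of_emb ε'
    ⟨bc L L' F₀ π, hbc0 π hπ0, by rw [hord π hπ0, hπ]; exact one_ne_zero⟩
  have hn1 : (n : ℤ) = 1 := by
    have h1 := hv' _ (hbc0 π hπ0)
    rw [hord π hπ0, hπ] at h1
    have h2 : (n : ℤ) ∣ 1 := ⟨_, h1⟩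
    have h3 := Int.eq_one_or_neg_one_of_mul_eq_one h1.symm
    omega
  refine ⟨v', fun f => ?_⟩
  by_cases hf : f = 0
  · subst hf; simp
  have h1 := hv' _ (hbc0 f hf)
  rw [hord f hf, hn1, one_mul] at h1
  exact h1.symm

/-- **B6.** -/
theorem mDiv_bc_iff (hFF : Fermat.Agent.S24RH.IsFF L (laurentBaseChange L F₀))
    {m : ℕ} {f : laurentBaseChange L F₀} :
    MDiv L' m (bc L L' F₀ f) ↔ MDiv L m f := by
  refine ⟨fun h => ⟨fun h0 => h.1 (by rw [h0, map_zero]), fun v => ?_⟩, mDiv_bc L L' F₀⟩
  obtain ⟨v', hv'⟩ := exists_place_extend L L' F₀ hFF v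
  rw [← hv']
  exact h.2 v'

end Fermat.Agent.ESlib
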