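import Mathlib

/-!
# ES, part B0: an element with finite orbit under `Aut(L/K)` is algebraic
-/

set_option autoImplicit false

namespace Fermat.Agent.ESlib

open MvPolynomial

section Shift

variable {ι K : Type*} [CommRing K] [DecidableEq ι]

/-- the substitution `X i₀ ↦ X i₀ + c` -/
noncomputable def shiftHom (i₀ : ι) (c : K) : MvPolynomial ι K →ₐ[K] MvPolynomial ι K :=
  aeval (fun i => X i + if i = i₀ then C c else 0)

lemma shiftHom_X (i₀ : ι) (c : K) (i : ι) :
    shiftHom i₀ c (X i) = X i + if i = i₀ then C c else 0 := by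
  simp [shiftHom]

lemma shiftHom_comp (i₀ : ι) (c : K) :
    (shiftHom i₀ c).comp (shiftHom i₀ (-c)) = AlgHom.id K _ := by
  apply MvPolynomial.algHom_ext
  intro i
  simp only [AlgHom.comp_apply, shiftHom_X, map_add, AlgHom.id_apply]
  split_ifs with h
  · have : shiftHom i₀ c (C (-c)) = C (-c) := (shiftHom i₀ c).commutes (-c)
    rw [this]
    simp
  · simp

/-- the substitution `X i₀ ↦ X i₀ + c` as an automorphism -/
noncomputable def shiftEquiv (i₀ : ι) (c : K) : MvPolynomial ι K ≃ₐ[K] MvPolynomial ι K :=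
  AlgEquiv.ofAlgHom (shiftHom i₀ c) (shiftHom i₀ (-c)) (shiftHom_comp i₀ c)
    (by simpa using shiftHom_comp i₀ (-c))

lemma shiftEquiv_X (i₀ : ι) (c : K) : shiftEquiv i₀ c (X i₀) = X i₀ + C c := by
  show shiftHom i₀ c (X i₀) = _
  rw [shiftHom_X, if_pos rfl]

end Shift

variable {K L : Type*} [Field K] [Field L] [Algebra K L] [IsAlgClosed L]

/-- A transcendental element of an algebraically closed field can be translated by any constant
by an automorphism. -/
theorem exists_algEquiv_add (x : L) (hx : Transcendental K x) (c : K) :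
    ∃ σ : L ≃ₐ[K] L, σ x = x + algebraMap K L c := by
  classical
  have hs : AlgebraicIndepOn K id ({x} : Set L) := by
    have : AlgebraicIndependent K (fun i : ({x} : Set L) => id (i : L)) :=
      (algebraicIndependent_singleton_iff (⟨x, rfl⟩ : ({x} : Set L))).mpr hx
    exact this
  obtain ⟨t, hxt, ht⟩ := exists_isTranscendenceBasis_superset hs
  let i₀ : t := ⟨x, hxt rfl⟩
  let R₀ := Algebra.adjoin K (Set.range (Subtype.val : t → L))
  let e : MvPolynomial t K ≃ₐ[K] R₀ := ht.1.aevalEquiv
  let φ : R₀ ≃ₐ[K] R₀ := e.symm.trans ((shiftEquiv i₀ c).trans e)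
  have halg : Algebra.IsAlgebraic R₀ L := ht.isAlgebraic
  have hcl : IsAlgClosure R₀ L := ⟨inferInstance, halg⟩
  let S : L ≃+* L := IsAlgClosure.equivOfEquiv L L φ.toRingEquiv
  have hS : ∀ r : R₀, S (algebraMap R₀ L r) = algebraMap R₀ L (φ r) := fun r =>
    IsAlgClosure.equivOfEquiv_algebraMap L L φ.toRingEquiv r
  refine ⟨AlgEquiv.ofRingEquiv (f := S) ?_, ?_⟩
  · intro k
    rw [IsScalarTower.algebraMap_apply K R₀ L, hS, φ.commutes]
  · show S x = _
    have h1 : x = algebraMap R₀ L (e (X i₀)) := by
      rw [AlgebraicIndependent.algebraMap_aevalEquiv, aeval_X]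
    have h2 : φ (e (X i₀)) = e (X i₀ + C c) := by
      show e (shiftEquiv i₀ c (e.symm (e (X i₀)))) = _
      rw [AlgEquiv.symm_apply_apply, shiftEquiv_X]
    conv_lhs => rw [h1]
    rw [hS, h2, AlgebraicIndependent.algebraMap_aevalEquiv, map_add, aeval_X, aeval_C]

/-- **ES B0.**  An element of an algebraically closed field `L` whose orbit under `Aut(L/K)` is
finite is algebraic over `K` (characteristic zero). -/
theorem isAlgebraic_of_finite_orbit [CharZero K] (x : L)
    (h : (Set.range fun σ : L ≃ₐ[K] L => σ x).Finite) : IsAlgebraic K x := by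
  by_contra hx
  have hx' : Transcendental K x := hx
  have hinj : Function.Injective (fun n : ℕ => x + algebraMap K L (n : K)) := by
    intro m n hmn
    have h1 : algebraMap K L (m : K) = algebraMap K L (n : K) := add_left_cancel hmn
    exact_mod_cast (algebraMap K L).injective h1
  have hsub : Set.range (fun n : ℕ => x + algebraMap K L (n : K))
      ⊆ Set.range fun σ : L ≃ₐ[K] L => σ x := by
    rintro _ ⟨n, rfl⟩
    obtain ⟨σ, hσ⟩ := exists_algEquiv_add x hx' (n : K)
    exact ⟨σ, hσ⟩
  exact Set.infinite_range_of_injective hinj (h.subset hsub)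

end Fermat.Agent.ESlib
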