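import Fermat.Agent.ES.B.Rational
import Fermat.Agent.ES.B.FiniteOrbit

/-!
# ES, part B2: `m`-th roots are defined over `L`; injectivity of `W_m(L) → W_m(L')`
-/

set_option autoImplicit false
set_option linter.unusedSectionVars false

open AlgebraicCurve ModularCurve

namespace Fermat.Agent.ESlib

variable (L L' : Type*) [Field L] [Field L'] [Algebra ℚ L] [Algebra ℚ L'] [Algebra L L']
  [IsScalarTower ℚ L L'] [IsAlgClosed L] [IsAlgClosed L']

/-- **B2a.** If `g ^ m` has coefficients in `L` then so has `g`.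
(Proof: for `σ ∈ Aut(L'/L)`, `σ g` is again an `m`-th root, there are at most `m` of them, so every
coefficient of `g` has a finite orbit; use `isAlgebraic_of_finite_orbit`.) -/
theorem coeff_mem_range_of_pow {m : ℕ} (hm : 0 < m) (g : LaurentSeries L')
    (h : ∀ k : ℤ, (g ^ m).coeff k ∈ (algebraMap L L').range) (k : ℤ) :
    g.coeff k ∈ (algebraMap L L').range := by
  classical
  have : CharZero L := algebraRat.charZero L
  have hroot : ∀ σ : L' ≃ₐ[L] L', (coeffMap (σ : L' →+* L') g) ^ m = g ^ m := by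
    intro σ
    rw [← map_pow]
    ext j
    obtain ⟨c, hc⟩ := h j
    rw [coeffMap_coeff, ← hc]
    exact σ.commutes c
  have hfin : (Set.range fun σ : L' ≃ₐ[L] L' => coeffMap (σ : L' →+* L') g).Finite := by
    have hp : (Polynomial.X ^ m - Polynomial.C (g ^ m) : Polynomial (LaurentSeries L')) ≠ 0 :=
      Polynomial.X_pow_sub_C_ne_zero hm _
    refine Set.Finite.subset
      ((Polynomial.X ^ m - Polynomial.C (g ^ m) : Polynomial (LaurentSeries L')).roots.toFinset
        |>.finite_toSet) ?_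
    rintro _ ⟨σ, rfl⟩
    simp only [Finset.mem_coe, Multiset.mem_toFinset]
    rw [Polynomial.mem_roots hp]
    simp [hroot σ]
  have hfin2 : (Set.range fun σ : L' ≃ₐ[L] L' => σ (g.coeff k)).Finite := by
    refine Set.Finite.subset (hfin.image fun y => y.coeff k) ?_
    rintro _ ⟨σ, rfl⟩
    exact ⟨_, ⟨σ, rfl⟩, rfl⟩
  have halg : IsAlgebraic L (g.coeff k) := isAlgebraic_of_finite_orbit _ hfin2
  exact minpoly.mem_range_of_degree_eq_one L _
    (IsAlgClosed.degree_eq_one_of_irreducible L (minpoly.irreducible halg.isIntegral))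

variable (F₀ : IntermediateField ℚ (LaurentSeries ℚ))

/-- **B2.** injectivity of `W_m(L) → W_m(L')` -/
theorem exists_pow_eq_of_bc_eq_pow {m : ℕ} (hm : 0 < m) (f : laurentBaseChange L F₀)
    (g : laurentBaseChange L' F₀) (h : bc L L' F₀ f = g ^ m) :
    ∃ g₀ : laurentBaseChange L F₀, f = g₀ ^ m ∧ bc L L' F₀ g₀ = g := by
  have h1 : ∀ k : ℤ, ((g : LaurentSeries L') ^ m).coeff k ∈ (algebraMap L L').range := by
    intro k
    have h2 := congrArg (fun y : laurentBaseChange L' F₀ => (y : LaurentSeries L').coeff k) h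
    simp only [coe_bc, coeffMap_coeff] at h2
    exact ⟨_, h2⟩
  obtain ⟨g₀, hg₀⟩ := exists_bc_eq_of_coeff_mem L L' F₀ g
    (coeff_mem_range_of_pow L L' hm (g : LaurentSeries L') h1)
  refine ⟨g₀, ?_, hg₀⟩
  apply bc_injective L L' F₀
  rw [h, map_pow, hg₀]

end Fermat.Agent.ESlib
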