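import Fermat.Agent.ES.B.Canon
import Fermat.Agent.ES.B.Root
import Fermat.Agent.ES.B.PlaceExt

/-!
# ES, part B8: descent `L' → L` of classes with finite Galois orbit; main theorems of part B
-/

set_option autoImplicit false
set_option linter.unusedSectionVars false

open AlgebraicCurve ModularCurve

namespace Fermat.Agent.ESlib

variable (L L' : Type*) [Field L] [Field L'] [Algebra ℚ L] [Algebra ℚ L'] [Algebra L L']
  [IsScalarTower ℚ L L'] [IsAlgClosed L] [IsAlgClosed L']
variable (F₀ : IntermediateField ℚ (LaurentSeries ℚ))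

omit [Algebra ℚ L] [Algebra ℚ L'] [IsScalarTower ℚ L L'] [IsAlgClosed L'] in
/-- an element of `L'` which is algebraic over `L` lies in `L` -/
theorem mem_range_of_isAlgebraic {c : L'} (hc : IsAlgebraic L c) :
    c ∈ (algebraMap L L').range := by
  have hint : IsIntegral L c := hc.isIntegral
  have hdeg := IsAlgClosed.degree_eq_one_of_irreducible L (minpoly.irreducible hint)
  exact minpoly.mem_range_of_degree_eq_one L c hdeg

omit [IsAlgClosed L'] in
/-- the leading coefficient under an injective coefficient map -/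
theorem leadingCoeff_coeffMap_of_injective {R S : Type*} [CommRing R] [CommRing S] (i : R →+* S)
    (hi : Function.Injective i) (x : LaurentSeries R) :
    (coeffMap i x).leadingCoeff = i x.leadingCoeff := by
  rw [HahnSeries.leadingCoeff_eq, HahnSeries.leadingCoeff_eq,
    order_coeffMap_of_injective i hi, coeffMap_coeff]

/-- **B8.** Let `φ ∈ F_{L'}^×` be such that the classes of the conjugates `σ φ`,
`σ ∈ Aut(L'/ℚ)`, in `F_{L'}^× / m` form a finite set.  Then the class of `φ` contains an element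
of `F_L`. -/
theorem exists_bc_sameClass (hFF : Fermat.Agent.S24RH.IsFF L' (laurentBaseChange L' F₀))
    (x₀ : LaurentSeries ℚ) (hx₀ : x₀ ∈ F₀) (hx₀' : x₀.order ≠ 0)
    {m : ℕ} (hm : 0 < m) (φ : laurentBaseChange L' F₀) (hφ : φ ≠ 0)
    (T : Set (laurentBaseChange L' F₀)) (hT : T.Finite)
    (h : ∀ σ : L' ≃ₐ[ℚ] L', ∃ t ∈ T, SameClass m t (arithmeticGalois F₀ σ • φ)) :
    ∃ f : laurentBaseChange L F₀, SameClass m φ (bc L L' F₀ f) := by
  classical
  have : CharZero L' := algebraRat.charZero L'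
  let F' := laurentBaseChange L' F₀
  let j : F' := ⟨coeffEmb L' x₀, coeffEmb_mem_laurentBaseChange L' hx₀⟩
  have hjord : (j : LaurentSeries L').order ≠ 0 := by
    show (coeffMap (algebraMap ℚ L') x₀).order ≠ 0
    rw [order_coeffMap_of_injective _ (algebraMap ℚ L').injective]
    exact hx₀'
  have hj0 : j ≠ 0 := by
    intro h0
    apply hjord
    rw [h0]
    simp
  have hj : Transcendental L' j := by
    obtain ⟨v, n, hn, hv⟩ := Fermat.Agent.S24lib.exists_place_of_emb (K := L') (F'.val)
      ⟨j, hj0, hjord⟩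
    apply Fermat.Agent.S24RH.transcendental_of_ord_ne_zero v
    intro h0
    apply hjord
    have := hv j hj0
    rw [h0, mul_zero] at this
    exact this
  obtain ⟨ψ, hψ⟩ := exists_isCan hFF j hj hm hφ
  -- conjugates of `ψ`
  have hcan : ∀ σ : L' ≃ₐ[ℚ] L',
      IsCan j m (arithmeticGalois F₀ σ • φ) (arithmeticGalois F₀ σ • ψ) := by
    intro σ
    refine hψ.smul (arithmeticGalois F₀ σ) ?_ ?_ ?_
    · apply Subtype.ext
      rw [coe_arithmeticGalois_smul]
      exact coeffMap_coeffEmb σ x₀
    · intro x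
      rw [coe_arithmeticGalois_smul]
      exact order_coeffMap_of_injective _ σ.injective _
    · intro x
      rw [coe_arithmeticGalois_smul, baseAut_arithmeticGalois]
      exact leadingCoeff_coeffMap_of_injective _ σ.injective _
  let c : F' → F' := fun t => if h : ∃ ψ', IsCan j m t ψ' then h.choose else 0
  have hsub : Set.range (fun σ : L' ≃ₐ[ℚ] L' => arithmeticGalois F₀ σ • ψ) ⊆ c '' T := by
    rintro _ ⟨σ, rfl⟩
    obtain ⟨t, ht, hcl⟩ := h σ
    refine ⟨t, ht, ?_⟩
    have h1 : IsCan j m t (arithmeticGalois F₀ σ • ψ) := (hcan σ).congr hcl.symm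
    have hex : ∃ ψ', IsCan j m t ψ' := ⟨_, h1⟩
    have ht0 : t ≠ 0 := by
      apply hcl.symm.ne_zero
      exact (smul_ne_zero_iff_ne _).2 hφ
    show (if h : ∃ ψ', IsCan j m t ψ' then h.choose else 0) = _
    rw [dif_pos hex]
    exact IsCan.unique hm ht0 hex.choose_spec h1
  have hfin : (Set.range (fun σ : L' ≃ₐ[ℚ] L' => arithmeticGalois F₀ σ • ψ)).Finite :=
    (hT.image c).subset hsub
  have hcoeff : ∀ k : ℤ, (ψ : LaurentSeries L').coeff k ∈ (algebraMap L L').range := by
    intro k
    have hfin' : (Set.range fun σ : L' ≃ₐ[ℚ] L' => σ ((ψ : LaurentSeries L').coeff k)).Finite := by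
      refine (hfin.image (fun x : F' => (x : LaurentSeries L').coeff k)).subset ?_
      rintro _ ⟨σ, rfl⟩
      exact ⟨_, ⟨σ, rfl⟩, rfl⟩
    have halg : IsAlgebraic ℚ ((ψ : LaurentSeries L').coeff k) :=
      isAlgebraic_of_finite_orbit _ hfin'
    exact mem_range_of_isAlgebraic L L' (halg.extendScalars (algebraMap ℚ L).injective)
  obtain ⟨f, hf⟩ := exists_bc_eq_of_coeff_mem L L' F₀ ψ hcoeff
  exact ⟨f, hf ▸ hψ.cls⟩

end Fermat.Agent.ESlib
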