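import Fermat.Agent.ES.B.Defs

/-!
# ES, part B1: `F_{L'} ∩ L((q)) = F_L`
-/

set_option autoImplicit false
set_option linter.unusedSectionVars false

open AlgebraicCurve ModularCurve

namespace Fermat.Agent.ESlib

variable (L L' : Type*) [Field L] [Field L'] [Algebra ℚ L] [Algebra ℚ L'] [Algebra L L']
  [IsScalarTower ℚ L L']
variable (F₀ : IntermediateField ℚ (LaurentSeries ℚ))

section lam

variable {L L'}

/-- an `L`-linear form applied coefficientwise -/
noncomputable def lamMap (lam : L' →ₗ[L] L) (x : LaurentSeries L') : LaurentSeries L :=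
  HahnSeries.map x lam

@[simp]
theorem lamMap_coeff (lam : L' →ₗ[L] L) (x : LaurentSeries L') (k : ℤ) :
    (lamMap lam x).coeff k = lam (x.coeff k) := rfl

theorem lamMap_zero (lam : L' →ₗ[L] L) : lamMap lam 0 = 0 := by
  ext k; simp

theorem lamMap_add (lam : L' →ₗ[L] L) (x y : LaurentSeries L') :
    lamMap lam (x + y) = lamMap lam x + lamMap lam y := by
  ext k; simp

theorem algebraMap_mul_coeff {M : Type*} [Field M] (a : M) (x : LaurentSeries M) (k : ℤ) :
    (algebraMap M (LaurentSeries M) a * x).coeff k = a * x.coeff k := by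
  rw [algebraMap_laurentSeries_eq_single, HahnSeries.single_zero_mul_eq_smul,
    HahnSeries.coeff_smul, smul_eq_mul]

theorem lamMap_smul (lam : L' →ₗ[L] L) (a : L') (x : LaurentSeries L') :
    lamMap lam (algebraMap L' (LaurentSeries L') a * x)
      = lamMap (lam.comp (LinearMap.mulLeft L a)) x := by
  ext k
  rw [lamMap_coeff, algebraMap_mul_coeff, lamMap_coeff]
  rfl

theorem lamMap_coeffMap (lam : L' →ₗ[L] L) (u : LaurentSeries L) :
    lamMap lam (coeffMap (algebraMap L L') u) = algebraMap L (LaurentSeries L) (lam 1) * u := by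
  ext k
  rw [lamMap_coeff, coeffMap_coeff, algebraMap_mul_coeff, Algebra.algebraMap_eq_smul_one,
    map_smul, smul_eq_mul, mul_comm]

end lam

/-- the key property of the algebra generated by the image of `F₀` -/
theorem lamMap_adjoin {Q : LaurentSeries L'}
    (hQ : Q ∈ Algebra.adjoin L' (⇑(coeffEmb L') '' (F₀ : Set (LaurentSeries ℚ))))
    (lam : L' →ₗ[L] L) (w : LaurentSeries L) :
    lamMap lam (coeffMap (algebraMap L L') w * Q) = w * lamMap lam Q ∧
      lamMap lam Q ∈ laurentBaseChange L F₀ := by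
  have himg : (⇑(coeffEmb L') '' (F₀ : Set (LaurentSeries ℚ)))
      = ((F₀.toSubfield.toSubring.toSubmonoid.map (coeffEmb L' : _ →* _) :
          Submonoid (LaurentSeries L')) : Set (LaurentSeries L')) := rfl
  rw [← Subalgebra.mem_toSubmodule, Algebra.adjoin_eq_span, himg, Submonoid.closure_eq,
    ← himg] at hQ
  induction hQ using Submodule.span_induction generalizing lam with
  | mem x hx =>
    obtain ⟨z, hz, rfl⟩ := hx
    rw [← coeffMap_coeffEmb_algebraMap L L', ← map_mul, lamMap_coeffMap, lamMap_coeffMap,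
      mul_left_comm]
    exact ⟨rfl, mul_mem ((laurentBaseChange L F₀).algebraMap_mem _)
      (coeffEmb_mem_laurentBaseChange L hz)⟩
  | zero => rw [mul_zero, lamMap_zero, mul_zero]; exact ⟨rfl, zero_mem _⟩
  | add x y _ _ hx hy =>
    rw [mul_add, lamMap_add, lamMap_add, (hx lam).1, (hy lam).1, mul_add]
    exact ⟨rfl, add_mem (hx lam).2 (hy lam).2⟩
  | smul a x _ hx =>
    rw [Algebra.smul_def, mul_left_comm, lamMap_smul, lamMap_smul]
    exact hx _

/-- **B1.** An element of `F_{L'}` all of whose coefficients lie in `L` comes from `F_L`. -/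
theorem exists_bc_eq_of_coeff_mem (x : laurentBaseChange L' F₀)
    (h : ∀ k : ℤ, (x : LaurentSeries L').coeff k ∈ (algebraMap L L').range) :
    ∃ y : laurentBaseChange L F₀, bc L L' F₀ y = x := by
  obtain ⟨x, hx⟩ := x
  simp only at h
  -- a retraction
  obtain ⟨lam1, hlam1⟩ : ∃ lam : L' →ₗ[L] L, lam 1 ≠ 0 := by
    by_contra hcon
    push Not at hcon
    exact one_ne_zero ((Module.forall_dual_apply_eq_zero_iff L (1 : L')).mp hcon)
  set lam0 : L' →ₗ[L] L := (lam1 1)⁻¹ • lam1 with hlam0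
  have h01 : lam0 1 = 1 := by
    rw [hlam0, LinearMap.smul_apply, smul_eq_mul, inv_mul_cancel₀ hlam1]
  set x0 : LaurentSeries L := lamMap lam0 x with hx0
  have hxx0 : coeffMap (algebraMap L L') x0 = x := by
    ext k
    obtain ⟨c, hc⟩ := h k
    rw [coeffMap_coeff, hx0, lamMap_coeff, ← hc, Algebra.algebraMap_eq_smul_one c, map_smul, h01,
      smul_eq_mul, mul_one, Algebra.algebraMap_eq_smul_one]
  suffices hmem : x0 ∈ laurentBaseChange L F₀ from ⟨⟨x0, hmem⟩, Subtype.ext hxx0⟩
  obtain ⟨P, hP, Q, hQ, hPQ⟩ := IntermediateField.mem_adjoin_iff_div.mp hx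
  by_cases hQ0 : Q = 0
  · have : x = 0 := by rw [hPQ, hQ0, div_zero]
    rw [hx0, this, lamMap_zero]
    exact zero_mem _
  obtain ⟨k, hk⟩ : ∃ k, Q.coeff k ≠ 0 := by
    by_contra hcon
    push Not at hcon
    exact hQ0 (HahnSeries.ext (funext hcon))
  obtain ⟨lam, hlam⟩ : ∃ lam : L' →ₗ[L] L, lam (Q.coeff k) ≠ 0 := by
    by_contra hcon
    push Not at hcon
    exact hk ((Module.forall_dual_apply_eq_zero_iff L (Q.coeff k)).mp hcon)
  have hLQ : lamMap lam Q ≠ 0 := by
    intro h0
    apply hlam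
    rw [← lamMap_coeff, h0, HahnSeries.coeff_zero]
  have hmul : coeffMap (algebraMap L L') x0 * Q = P := by
    rw [hxx0, hPQ, div_mul_cancel₀ _ hQ0]
  have h1 := (lamMap_adjoin L L' F₀ hQ lam x0).1
  rw [hmul] at h1
  have h2 : x0 = lamMap lam P / lamMap lam Q := by
    rw [h1, mul_div_cancel_right₀ _ hLQ]
  rw [h2]
  exact div_mem (lamMap_adjoin L L' F₀ hP lam 0).2 (lamMap_adjoin L L' F₀ hQ lam 0).2

end Fermat.Agent.ESlib
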