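import Fermat.Agent.ES.B.Descent

/-!
# ES, part B: the comparison isomorphism `W_m(L) ≃ W_m(L')`
-/

set_option autoImplicit false
set_option linter.unusedSectionVars false

open AlgebraicCurve ModularCurve

namespace Fermat.Agent.ESlib

variable (L L' : Type*) [Field L] [Field L'] [Algebra ℚ L] [Algebra ℚ L'] [Algebra L L']
  [IsScalarTower ℚ L L']
variable (F₀ : IntermediateField ℚ (LaurentSeries ℚ)) (m : ℕ)

/-- `bc` on the groups of `m`-divisible functions -/
noncomputable def bcUnits :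
    mDivUnits L (laurentBaseChange L F₀) m →* mDivUnits L' (laurentBaseChange L' F₀) m :=
  ((Units.map (bc L L' F₀).toMonoidHom).comp (mDivUnits L (laurentBaseChange L F₀) m).subtype).codRestrict
    _ (fun f => (mDiv_bc L L' F₀ (mem_mDivUnits.1 f.2)).2)

@[simp]
theorem coe_bcUnits (f : mDivUnits L (laurentBaseChange L F₀) m) :
    (((bcUnits L L' F₀ m f : mDivUnits L' (laurentBaseChange L' F₀) m) :
      (laurentBaseChange L' F₀)ˣ) : laurentBaseChange L' F₀)
      = bc L L' F₀ ((f : (laurentBaseChange L F₀)ˣ) : laurentBaseChange L F₀) := rfl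

/-- the comparison map `W_m(L) → W_m(L')` -/
noncomputable def WmMap :
    Wm L (laurentBaseChange L F₀) m →* Wm L' (laurentBaseChange L' F₀) m :=
  QuotientGroup.map _ _ (bcUnits L L' F₀ m) (by
    rintro ⟨f, hf⟩ ⟨g, hg⟩
    refine ⟨Units.map (bc L L' F₀).toMonoidHom g, ?_⟩
    have hg' : g ^ m = f := hg
    ext
    simp [← hg'])

theorem WmMap_mk (f : mDivUnits L (laurentBaseChange L F₀) m) :
    WmMap L L' F₀ m (QuotientGroup.mk f) = QuotientGroup.mk (bcUnits L L' F₀ m f) := rfl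

/-- **Part B, injectivity.** -/
theorem WmMap_injective [IsAlgClosed L] [IsAlgClosed L'] (hm : 0 < m) :
    Function.Injective (WmMap L L' F₀ m) := by
  rw [injective_iff_map_eq_one]
  intro x hx
  induction x using QuotientGroup.induction_on with
  | H f =>
    rw [WmMap_mk, QuotientGroup.eq_one_iff] at hx
    obtain ⟨g, hg⟩ := hx
    have hg' : bc L L' F₀ ((f : (laurentBaseChange L F₀)ˣ) : laurentBaseChange L F₀)
        = (g : laurentBaseChange L' F₀) ^ m := by
      have := congrArg (fun u : (laurentBaseChange L' F₀)ˣ => (u : laurentBaseChange L' F₀)) hg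
      simpa using this.symm
    obtain ⟨g₀, hg₀, -⟩ := exists_pow_eq_of_bc_eq_pow L L' F₀ hm _ _ hg'
    rw [QuotientGroup.eq_one_iff]
    have hg₀0 : g₀ ≠ 0 := by
      rintro rfl
      rw [zero_pow hm.ne'] at hg₀
      exact (f : (laurentBaseChange L F₀)ˣ).ne_zero hg₀
    refine ⟨Units.mk0 g₀ hg₀0, ?_⟩
    ext
    simp [hg₀]

/-- **Part B, surjectivity.** -/
theorem WmMap_surjective [IsAlgClosed L] [IsAlgClosed L'] (hm : 0 < m)
    (hFF : Fermat.Agent.S24RH.IsFF L (laurentBaseChange L F₀))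
    (hFF' : Fermat.Agent.S24RH.IsFF L' (laurentBaseChange L' F₀))
    (x₀ : LaurentSeries ℚ) (hx₀ : x₀ ∈ F₀) (hx₀' : x₀.order ≠ 0)
    [Finite (Wm L' (laurentBaseChange L' F₀) m)] :
    Function.Surjective (WmMap L L' F₀ m) := by
  intro w
  induction w using QuotientGroup.induction_on with
  | H φ =>
    let F' := laurentBaseChange L' F₀
    let T : Set F' := Set.range (fun w : Wm L' F' m => (((Quotient.out w : mDivUnits L' F' m) : F'ˣ) : F'))
    have hT : T.Finite := Set.finite_range _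
    have hφ : MDiv L' m ((φ : F'ˣ) : F') := mem_mDivUnits.1 φ.2
    have key : ∀ σ : L' ≃ₐ[ℚ] L', ∃ t ∈ T,
        SameClass m t (arithmeticGalois F₀ σ • ((φ : F'ˣ) : F')) := by
      intro σ
      set g := arithmeticGalois F₀ σ with hg
      have h0 : g • ((φ : F'ˣ) : F') ≠ 0 := (smul_ne_zero_iff_ne _).2 hφ.1
      have hdiv : MDiv L' m (g • ((φ : F'ˣ) : F')) := by
        refine ⟨h0, fun v => ?_⟩
        have h1 := SemilinearAut.ord_smul g (g⁻¹ • v) ((φ : F'ˣ) : F')
        rw [smul_inv_smul] at h1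
        rw [h1]
        exact hφ.2 _
      let u : mDivUnits L' F' m := ⟨Units.mk0 _ h0, mem_mDivUnits.2 hdiv⟩
      refine ⟨_, ⟨QuotientGroup.mk u, rfl⟩, ?_⟩
      have h2 : (QuotientGroup.mk (Quotient.out (QuotientGroup.mk u : Wm L' F' m)) : Wm L' F' m)
          = QuotientGroup.mk u := Quotient.out_eq _
      rw [QuotientGroup.eq] at h2
      obtain ⟨a, ha⟩ := h2
      refine ⟨a, a.ne_zero, ?_⟩
      have h3 := congrArg (fun x : F'ˣ => (x : F')) ha
      simp only [powMonoidHom_apply, Units.val_pow_eq_pow_val, Subgroup.subtype_apply,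
        Subgroup.coe_mul, Subgroup.coe_inv, Units.val_mul, Units.val_inv_eq_inv_val] at h3
      rw [h3]
      have h4 : (((Quotient.out (QuotientGroup.mk u : Wm L' F' m) : mDivUnits L' F' m) : F'ˣ) : F')
          ≠ 0 := Units.ne_zero _
      rw [mul_inv_cancel_left₀ h4]
      rfl
    obtain ⟨f, hf⟩ := exists_bc_sameClass L L' F₀ hFF' x₀ hx₀ hx₀' hm _ hφ.1 T hT key
    have hf1 : MDiv L' m (bc L L' F₀ f) := hφ.sameClass hf
    have hf2 : MDiv L m f := (mDiv_bc_iff L L' F₀ hFF).1 hf1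
    refine ⟨QuotientGroup.mk ⟨Units.mk0 f hf2.1, mem_mDivUnits.2 hf2⟩, ?_⟩
    rw [WmMap_mk, eq_comm, QuotientGroup.eq]
    obtain ⟨a, ha0, ha⟩ := hf
    refine ⟨Units.mk0 a ha0, ?_⟩
    ext
    simp only [powMonoidHom_apply, Units.val_pow_eq_pow_val, Units.val_mk0, Subgroup.subtype_apply,
      Subgroup.coe_mul, Subgroup.coe_inv, Units.val_mul, Units.val_inv_eq_inv_val, coe_bcUnits]
    rw [ha, inv_mul_cancel_left₀ hφ.1]

end Fermat.Agent.ESlib
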