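import Fermat.Agent.ES.B.Defs
import Fermat.Agent.S24.Complete
import Fermat.Agent.S24.RHDeg

/-!
# ES, part B7: the canonical representative of a class in `F^× / F^{× m}`

`F ⊆ K((q))` a function field over the algebraically closed field `K`, `j ∈ F` transcendental.
Among the `ψ ∈ φ F^{× m}` we take those with `div ψ ≥ - m r (j)_∞` for the minimal possible `r`,
among those the ones with the maximal `q`-order, and we normalise the leading coefficient.
-/

set_option autoImplicit false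
set_option linter.unusedSectionVars false

open AlgebraicCurve ModularCurve Fermat.Agent.S24RH

namespace Fermat.Agent.ESlib

section hahn
variable {K : Type*} [Field K]

theorem order_lt_order_sub {x y : LaurentSeries K} (ho : x.order = y.order)
    (hl : x.leadingCoeff = y.leadingCoeff) (hxy : x - y ≠ 0) : x.order < (x - y).order := by
  have : x.order + 1 ≤ (x - y).order := by
    rw [HahnSeries.le_order_iff_forall hxy]
    intro i hi
    rw [HahnSeries.coeff_sub]
    rcases (Int.lt_add_one_iff.1 hi).lt_or_eq with h | h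
    · rw [HahnSeries.coeff_eq_zero_of_lt_order h, HahnSeries.coeff_eq_zero_of_lt_order (ho ▸ h),
        sub_zero]
    · rw [HahnSeries.leadingCoeff_eq, HahnSeries.leadingCoeff_eq, ← ho, ← h] at hl
      rw [hl, sub_self]
  omega

theorem order_algebraMap_mul {c : K} (hc : c ≠ 0) (y : LaurentSeries K) :
    (algebraMap K (LaurentSeries K) c * y).order = y.order := by
  rcases eq_or_ne y 0 with rfl | hy
  · simp
  rw [algebraMap_laurentSeries_eq_single, HahnSeries.order_mul (by simpa using hc) hy,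
    HahnSeries.order_single hc, zero_add]

theorem leadingCoeff_algebraMap_mul (c : K) (y : LaurentSeries K) :
    (algebraMap K (LaurentSeries K) c * y).leadingCoeff = c * y.leadingCoeff := by
  rw [algebraMap_laurentSeries_eq_single, HahnSeries.leadingCoeff_mul,
    HahnSeries.leadingCoeff_of_single]

end hahn

variable {K : Type*} [Field K] {F : IntermediateField K (LaurentSeries K)}

/-- `div ψ ≥ - m r (j)_∞` -/
def PoleBd (j : F) (m r : ℕ) (ψ : F) : Prop :=
  ∀ v : Place K F, -((m * r : ℕ) : ℤ) * max 0 (-(v.ord j)) ≤ v.ord ψ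

/-- `ψ` is the canonical representative of the class of `φ` -/
structure IsCan (j : F) (m : ℕ) (φ ψ : F) : Prop where
  cls : SameClass m φ ψ
  lead : (ψ : LaurentSeries K).leadingCoeff = 1
  ex : ∃ r : ℕ, PoleBd j m r ψ ∧
    (∀ (ψ' : F) (r' : ℕ), SameClass m φ ψ' → PoleBd j m r' ψ' → r ≤ r') ∧
    (∀ ψ' : F, SameClass m φ ψ' → PoleBd j m r ψ' →
      (ψ' : LaurentSeries K).order ≤ (ψ : LaurentSeries K).order)

theorem IsCan.congr {j : F} {m : ℕ} {φ φ' ψ : F} (h : IsCan j m φ ψ) (hc : SameClass m φ φ') :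
    IsCan j m φ' ψ := by
  obtain ⟨r, h1, h2, h3⟩ := h.ex
  exact ⟨hc.symm.trans h.cls, h.lead, r, h1, fun ψ' r' hψ' => h2 ψ' r' (hc.trans hψ'),
    fun ψ' hψ' => h3 ψ' (hc.trans hψ')⟩

/-- the `q`-order on `F` -/
noncomputable def qord (x : F) : ℤ := (x : LaurentSeries K).order

theorem qord_mul {x y : F} (hx : x ≠ 0) (hy : y ≠ 0) : qord (x * y) = qord x + qord y := by
  unfold qord
  rw [IntermediateField.coe_mul, HahnSeries.order_mul (by simpa using hx) (by simpa using hy)]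

theorem qord_pow (x : F) (n : ℕ) : qord (x ^ n) = n * qord x := by
  unfold qord
  rw [IntermediateField.coe_pow, HahnSeries.order_pow, nsmul_eq_mul]

/-- closure of the pole bound under linear combinations of the `m`-th roots -/
theorem PoleBd.sub {j : F} {m r : ℕ} {φ g₁ g₂ : F} (hφ : φ ≠ 0) (hg₁ : g₁ ≠ 0) (hg₂ : g₂ ≠ 0)
    (h₁ : PoleBd j m r (φ * g₁ ^ m)) (h₂ : PoleBd j m r (φ * g₂ ^ m)) {c : K} (hc : c ≠ 0)
    (h3 : g₁ - algebraMap K F c * g₂ ≠ 0) :
    PoleBd j m r (φ * (g₁ - algebraMap K F c * g₂) ^ m) := by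
  intro v
  have e₁ := h₁ v
  have e₂ := h₂ v
  rw [v.ord_mul hφ (pow_ne_zero _ hg₁), ord_pow] at e₁
  rw [v.ord_mul hφ (pow_ne_zero _ hg₂), ord_pow] at e₂
  rw [v.ord_mul hφ (pow_ne_zero _ h3), ord_pow]
  have hc' : algebraMap K F c ≠ 0 := by simpa using hc
  have hcg : v.ord (-(algebraMap K F c * g₂)) = v.ord g₂ := by
    rw [ord_neg, v.ord_mul hc' hg₂, ord_algebraMap, zero_add]
  have hmin : min (v.ord g₁) (v.ord g₂) ≤ v.ord (g₁ - algebraMap K F c * g₂) := by
    rcases le_ord_add v (f := g₁) (g := -(algebraMap K F c * g₂)) (n := min (v.ord g₁) (v.ord g₂))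
      (Or.inr (min_le_left _ _)) (Or.inr (by rw [hcg]; exact min_le_right _ _)) with h | h
    · exact absurd (by rwa [← sub_eq_add_neg] at h) h3
    · rwa [← sub_eq_add_neg] at h
  have hm0 : (0 : ℤ) ≤ m := Int.natCast_nonneg m
  rcases le_total (v.ord g₁) (v.ord g₂) with hle | hle
  · rw [min_eq_left hle] at hmin
    have := mul_le_mul_of_nonneg_left hmin hm0
    linarith
  · rw [min_eq_right hle] at hmin
    have := mul_le_mul_of_nonneg_left hmin hm0
    linarith

/-- **B7a.** uniqueness -/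
theorem IsCan.unique {j : F} {m : ℕ} (hm : 0 < m) {φ ψ₁ ψ₂ : F} (hφ : φ ≠ 0)
    (h₁ : IsCan j m φ ψ₁) (h₂ : IsCan j m φ ψ₂) : ψ₁ = ψ₂ := by
  obtain ⟨r₁, hb₁, hmin₁, hmax₁⟩ := h₁.ex
  obtain ⟨r₂, hb₂, hmin₂, hmax₂⟩ := h₂.ex
  have hr : r₁ = r₂ := le_antisymm (hmin₁ _ _ h₂.cls hb₂) (hmin₂ _ _ h₁.cls hb₁)
  subst hr
  have hord : qord ψ₁ = qord ψ₂ := le_antisymm (hmax₂ _ h₁.cls hb₁) (hmax₁ _ h₂.cls hb₂)
  have hl₁ := h₁.lead
  have hl₂ := h₂.lead
  obtain ⟨g₁, hg₁, rfl⟩ := h₁.cls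
  obtain ⟨g₂, hg₂, rfl⟩ := h₂.cls
  have hm' : (0 : ℤ) < m := by exact_mod_cast hm
  have hog : qord g₁ = qord g₂ := by
    rw [qord_mul hφ (pow_ne_zero _ hg₁), qord_mul hφ (pow_ne_zero _ hg₂), qord_pow, qord_pow] at hord
    have : (m : ℤ) * qord g₁ = m * qord g₂ := by linarith
    exact mul_left_cancel₀ hm'.ne' this
  have hg₁' : (g₁ : LaurentSeries K) ≠ 0 := by simpa using hg₁
  have hg₂' : (g₂ : LaurentSeries K) ≠ 0 := by simpa using hg₂
  have hlg₁ : (g₁ : LaurentSeries K).leadingCoeff ≠ 0 := HahnSeries.leadingCoeff_ne_zero.2 hg₁'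
  have hlg₂ : (g₂ : LaurentSeries K).leadingCoeff ≠ 0 := HahnSeries.leadingCoeff_ne_zero.2 hg₂'
  set c : K := (g₁ : LaurentSeries K).leadingCoeff / (g₂ : LaurentSeries K).leadingCoeff with hc
  have hc0 : c ≠ 0 := div_ne_zero hlg₁ hlg₂
  by_cases h3 : g₁ - algebraMap K F c * g₂ = 0
  · have hg : g₁ = algebraMap K F c * g₂ := sub_eq_zero.1 h3
    have hcm : c ^ m = 1 := by
      rw [hg, mul_pow, ← mul_assoc, mul_comm φ, mul_assoc, ← map_pow, IntermediateField.coe_mul,
        IntermediateField.coe_algebraMap_apply, leadingCoeff_algebraMap_mul, hl₂, mul_one] at hl₁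
      exact hl₁
    rw [hg, mul_pow, ← map_pow, hcm, map_one, one_mul]
  · exfalso
    have hb₃ := PoleBd.sub hφ hg₁ hg₂ hb₁ hb₂ hc0 h3
    have hle := hmax₁ _ ⟨_, h3, rfl⟩ hb₃
    change qord _ ≤ qord _ at hle
    rw [qord_mul hφ (pow_ne_zero _ h3), qord_mul hφ (pow_ne_zero _ hg₁), qord_pow, qord_pow] at hle
    have hlt : qord g₁ < qord (g₁ - algebraMap K F c * g₂) := by
      unfold qord
      rw [AddSubgroupClass.coe_sub, IntermediateField.coe_mul,
        IntermediateField.coe_algebraMap_apply]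
      apply order_lt_order_sub
      · rw [order_algebraMap_mul hc0]; exact hog
      · rw [leadingCoeff_algebraMap_mul, hc, div_mul_cancel₀ _ hlg₂]
      · intro h
        apply h3
        apply Subtype.ext
        rw [AddSubgroupClass.coe_sub, IntermediateField.coe_mul,
          IntermediateField.coe_algebraMap_apply, h]
        rfl
    have := mul_lt_mul_of_pos_left hlt hm'
    linarith

theorem PoleBd.smul {j : F} {m r : ℕ} {ψ : F} (h : PoleBd j m r ψ) (g : SemilinearAut K F)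
    (hgj : g • j = j) : PoleBd j m r (g • ψ) := by
  intro v
  have h1 := h (g⁻¹ • v)
  have e1 : (g⁻¹ • v).ord ψ = v.ord (g • ψ) := by
    have := SemilinearAut.ord_smul g (g⁻¹ • v) ψ
    rw [smul_inv_smul] at this
    exact this.symm
  have e2 : (g⁻¹ • v).ord j = v.ord j := by
    have := SemilinearAut.ord_smul g (g⁻¹ • v) j
    rw [smul_inv_smul, hgj] at this
    exact this.symm
  rw [e1, e2] at h1
  exact h1

theorem SameClass.smul {m : ℕ} {φ ψ : F} (h : SameClass m φ ψ) (g : SemilinearAut K F) :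
    SameClass m (g • φ) (g • ψ) :=
  SameClass.map ((SemilinearAut.toRingAut g : F ≃+* F) : F →+* F) h

/-- **B7c.** equivariance -/
theorem IsCan.smul {j : F} {m : ℕ} {φ ψ : F} (h : IsCan j m φ ψ) (g : SemilinearAut K F)
    (hgj : g • j = j)
    (hord : ∀ x : F, ((g • x : F) : LaurentSeries K).order = (x : LaurentSeries K).order)
    (hlead : ∀ x : F, ((g • x : F) : LaurentSeries K).leadingCoeff
      = SemilinearAut.baseAut g (x : LaurentSeries K).leadingCoeff) :
    IsCan j m (g • φ) (g • ψ) := by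
  obtain ⟨r, h1, h2, h3⟩ := h.ex
  have hgj' : g⁻¹ • j = j := by rw [inv_smul_eq_iff, hgj]
  have hback : ∀ ψ' : F, SameClass m (g • φ) ψ' → SameClass m φ (g⁻¹ • ψ') := by
    intro ψ' hψ'
    have := hψ'.smul g⁻¹
    rwa [inv_smul_smul] at this
  refine ⟨h.cls.smul g, by rw [hlead, h.lead, map_one], r, h1.smul g hgj, ?_, ?_⟩
  · intro ψ' r' hψ' hb
    exact h2 _ _ (hback ψ' hψ') (hb.smul g⁻¹ hgj')
  · intro ψ' hψ' hb
    have := h3 _ (hback ψ' hψ') (hb.smul g⁻¹ hgj')
    rw [hord ψ]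
    have e := hord (g⁻¹ • ψ')
    rw [smul_inv_smul] at e
    rw [e]
    exact this

section exist

theorem ord_prod' {K F ι : Type*} [Field K] [Field F] [Algebra K F] (v : Place K F)
    (s : Finset ι) (f : ι → F) (hf : ∀ i ∈ s, f i ≠ 0) :
    v.ord (∏ i ∈ s, f i) = ∑ i ∈ s, v.ord (f i) := by
  classical
  induction s using Finset.induction_on with
  | empty => simp
  | insert a s ha ih =>
    rw [Finset.prod_insert ha, Finset.sum_insert ha,
      v.ord_mul (hf a (Finset.mem_insert_self a s))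
        (Finset.prod_ne_zero_iff.2 fun i hi => hf i (Finset.mem_insert_of_mem hi)),
      ih fun i hi => hf i (Finset.mem_insert_of_mem hi)]

variable [IsAlgClosed K] [CharZero K]

theorem sub_const_ne_zero {j : F} (hj : Transcendental K j) (c : K) : j - algebraMap K F c ≠ 0 := by
  intro h
  apply hj
  rw [sub_eq_zero.1 h]
  exact isAlgebraic_algebraMap c

theorem ord_sub_const_nonneg {j : F} (hj : Transcendental K j) (w : Place K F)
    (hw : 0 ≤ w.ord j) (c : K) : 0 ≤ w.ord (j - algebraMap K F c) := by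
  rcases le_ord_add w (f := j) (g := -algebraMap K F c) (n := 0) (Or.inr hw)
    (Or.inr (by rw [ord_neg, ord_algebraMap])) with h | h
  · exact absurd (by rwa [← sub_eq_add_neg] at h) (sub_const_ne_zero hj c)
  · rwa [← sub_eq_add_neg] at h

theorem poleBd_aux {m R : ℕ} {a b : ℤ} (hm : 0 < m) (hb : b < 0) (h : a.natAbs ≤ R) :
    -((m * R : ℕ) : ℤ) * max 0 (-b) ≤ a := by
  have hm1 : (1 : ℤ) ≤ m := by exact_mod_cast hm
  have h2 : (1 : ℤ) ≤ max 0 (-b) := le_max_of_le_right (by omega)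
  have h3 : (a.natAbs : ℤ) ≤ R := by exact_mod_cast h
  have h4 : -(a.natAbs : ℤ) ≤ a := by omega
  have h6 : (0 : ℤ) ≤ R := Int.natCast_nonneg _
  have h7 : (R : ℤ) ≤ m * R := by nlinarith
  have h8 : (m * R : ℤ) * 1 ≤ (m * R : ℤ) * max 0 (-b) :=
    mul_le_mul_of_nonneg_left h2 (by positivity)
  push_cast
  linarith

/-- step 1: some element of the class has poles only at the poles of `j` -/
theorem exists_poleBd (hFF : IsFF K F) (j : F) (hj : Transcendental K j) {m : ℕ} (hm : 0 < m)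
    {φ : F} (hφ : φ ≠ 0) : ∃ (r : ℕ) (ψ : F), SameClass m φ ψ ∧ PoleBd j m r ψ := by
  classical
  have hj0 : j ≠ 0 := by
    rintro rfl
    exact hj isAlgebraic_zero
  have hc : ∀ v : Place K F, ∃ c : K, 0 ≤ v.ord j → 0 < v.ord (j - algebraMap K F c) := by
    intro v
    by_cases hv : 0 ≤ v.ord j
    · obtain ⟨c, hc | hc⟩ := exists_const hFF v (mem_of_ord_nonneg v hv)
      · exact absurd (sub_eq_zero.2 hc) (sub_const_ne_zero hj c)
      · exact ⟨c, fun _ => hc⟩
    · exact ⟨0, fun h => absurd h hv⟩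
  choose c hc using hc
  set P : Finset (Place K F) := (finite_ord_ne_zero hFF hφ).toFinset with hP
  set g : F := ∏ v ∈ P, (j - algebraMap K F (c v)) ^ (-(v.ord φ)).toNat with hg
  have hfac : ∀ v ∈ P, (j - algebraMap K F (c v)) ^ (-(v.ord φ)).toNat ≠ 0 :=
    fun v _ => pow_ne_zero _ (sub_const_ne_zero hj _)
  have hg0 : g ≠ 0 := Finset.prod_ne_zero_iff.2 hfac
  have hgord : ∀ w : Place K F, 0 ≤ w.ord j → 0 ≤ w.ord g ∧ -(w.ord φ) ≤ w.ord g := by
    intro w hw
    have hterm : ∀ v ∈ P, 0 ≤ w.ord ((j - algebraMap K F (c v)) ^ (-(v.ord φ)).toNat) := by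
      intro v _
      rw [ord_pow]
      exact mul_nonneg (Int.natCast_nonneg _) (ord_sub_const_nonneg hj w hw _)
    rw [hg, ord_prod' w P _ hfac]
    refine ⟨Finset.sum_nonneg hterm, ?_⟩
    by_cases hwP : w ∈ P
    · refine le_trans ?_ (Finset.single_le_sum hterm hwP)
      rw [ord_pow]
      have h1 := hc w hw
      have h2 : (0 : ℤ) ≤ ((-(w.ord φ)).toNat : ℤ) := Int.natCast_nonneg _
      have h3 : -(w.ord φ) ≤ ((-(w.ord φ)).toNat : ℤ) := Int.self_le_toNat _
      nlinarith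
    · have : w.ord φ = 0 := by
        by_contra h
        exact hwP ((Set.Finite.mem_toFinset _).2 h)
      rw [this, neg_zero]
      exact Finset.sum_nonneg hterm
  set ψ : F := φ * g ^ m with hψ
  have hψ0 : ψ ≠ 0 := mul_ne_zero hφ (pow_ne_zero _ hg0)
  set Q : Finset (Place K F) := (finite_ord_ne_zero hFF hj0).toFinset with hQ
  refine ⟨∑ w ∈ Q, (w.ord ψ).natAbs, ψ, ⟨g, hg0, rfl⟩, ?_⟩
  intro w
  have hm1 : (1 : ℤ) ≤ m := by exact_mod_cast hm
  by_cases hw : 0 ≤ w.ord j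
  · rw [max_eq_left (by omega), mul_zero, hψ, w.ord_mul hφ (pow_ne_zero _ hg0), ord_pow]
    obtain ⟨h1, h2⟩ := hgord w hw
    nlinarith
  · have hwQ : w ∈ Q := (Set.Finite.mem_toFinset _).2 (by
      show w.ord j ≠ 0
      omega)
    have h1 : (w.ord ψ).natAbs ≤ ∑ w ∈ Q, (w.ord ψ).natAbs :=
      Finset.single_le_sum (f := fun w : Place K F => (w.ord ψ).natAbs) (fun _ _ => Nat.zero_le _) hwQ
    exact poleBd_aux hm (by omega) h1

/-- step 3: the `q`-order is bounded on the elements satisfying a pole bound -/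
theorem exists_qord_le (hFF : IsFF K F) (j : F) (hj : Transcendental K j) (m r : ℕ) :
    ∃ B : ℤ, ∀ ψ : F, ψ ≠ 0 → PoleBd j m r ψ → qord ψ ≤ B := by
  classical
  by_cases hnt : ∃ f : F, f ≠ 0 ∧ (F.val f).order ≠ 0
  · obtain ⟨v₀, e, he, hv⟩ := Fermat.Agent.S24lib.exists_place_of_emb F.val hnt
    have hj0 : j ≠ 0 := by
      rintro rfl
      exact hj isAlgebraic_zero
    set Q : Finset (Place K F) := (finite_ord_ne_zero hFF hj0).toFinset with hQ
    refine ⟨e * ∑ v ∈ Q, ((m * r : ℕ) : ℤ) * max 0 (-(v.ord j)), fun ψ hψ hb => ?_⟩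
    have hq : qord ψ = e * v₀.ord ψ := hv ψ hψ
    rw [hq]
    apply mul_le_mul_of_nonneg_left _ (Int.natCast_nonneg e)
    set s : Finset (Place K F) := (finite_ord_ne_zero hFF hψ).toFinset ∪ Q ∪ {v₀} with hs
    have hsum : ∑ v ∈ s, v.ord ψ = 0 := sum_ord_eq_zero hFF hψ s (fun v hv => by
      rw [hs]
      exact Finset.mem_union_left _ (Finset.mem_union_left _ ((Set.Finite.mem_toFinset _).2 hv)))
    have hQs : Q ⊆ s := fun v hv => Finset.mem_union_left _ (Finset.mem_union_right _ hv)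
    have hB : ∑ v ∈ Q, ((m * r : ℕ) : ℤ) * max 0 (-(v.ord j))
        = ∑ v ∈ s, ((m * r : ℕ) : ℤ) * max 0 (-(v.ord j)) := by
      refine Finset.sum_subset hQs (fun v _ hvQ => ?_)
      have : v.ord j = 0 := by
        by_contra h
        exact hvQ ((Set.Finite.mem_toFinset _).2 h)
      rw [this]
      simp
    have hterm : ∀ v ∈ s, 0 ≤ v.ord ψ + ((m * r : ℕ) : ℤ) * max 0 (-(v.ord j)) := fun v _ => by
      have := hb v
      linarith
    have h1 := Finset.single_le_sum hterm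
      (show v₀ ∈ s from Finset.mem_union_right _ (Finset.mem_singleton_self _))
    rw [Finset.sum_add_distrib, hsum, ← hB, zero_add] at h1
    have h2 : 0 ≤ ((m * r : ℕ) : ℤ) * max 0 (-(v₀.ord j)) :=
      mul_nonneg (Int.natCast_nonneg _) (le_max_left _ _)
    linarith
  · refine ⟨0, fun ψ hψ _ => ?_⟩
    push Not at hnt
    exact (hnt ψ hψ).le

/-- **B7b.** existence -/
theorem exists_isCan (hFF : IsFF K F)
    (j : F) (hj : Transcendental K j) {m : ℕ} (hm : 0 < m) {φ : F} (hφ : φ ≠ 0) :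
    ∃ ψ : F, IsCan j m φ ψ := by
  classical
  have hex := exists_poleBd hFF j hj hm hφ
  obtain ⟨ψ₁, hc₁, hb₁⟩ := Nat.find_spec hex
  obtain ⟨B, hB⟩ := exists_qord_le hFF j hj m (Nat.find hex)
  obtain ⟨n, ⟨ψ₀, hc₀, hb₀, hn⟩, hmax⟩ := Int.exists_greatest_of_bdd
    (P := fun n => ∃ ψ' : F, SameClass m φ ψ' ∧ PoleBd j m (Nat.find hex) ψ' ∧ qord ψ' = n)
    ⟨B, fun z ⟨ψ', h1, h2, h3⟩ => h3 ▸ hB ψ' (h1.ne_zero hφ) h2⟩ ⟨_, ψ₁, hc₁, hb₁, rfl⟩
  have hψ₀ : ψ₀ ≠ 0 := hc₀.ne_zero hφ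
  have ha : (ψ₀ : LaurentSeries K).leadingCoeff ≠ 0 :=
    HahnSeries.leadingCoeff_ne_zero.2 (by simpa using hψ₀)
  obtain ⟨d, hd⟩ := IsAlgClosed.exists_pow_nat_eq ((ψ₀ : LaurentSeries K).leadingCoeff)⁻¹ hm
  have hd0 : d ≠ 0 := by
    rintro rfl
    rw [zero_pow hm.ne'] at hd
    exact inv_ne_zero ha hd.symm
  have hdm : d ^ m ≠ 0 := pow_ne_zero _ hd0
  have hd' : algebraMap K F d ≠ 0 := by simpa using hd0
  have hcoe : ((ψ₀ * algebraMap K F d ^ m : F) : LaurentSeries K)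
      = algebraMap K (LaurentSeries K) (d ^ m) * (ψ₀ : LaurentSeries K) := by
    rw [IntermediateField.coe_mul, IntermediateField.coe_pow,
      IntermediateField.coe_algebraMap_apply, map_pow, mul_comm]
  refine ⟨ψ₀ * algebraMap K F d ^ m, hc₀.trans ⟨algebraMap K F d, hd', rfl⟩, ?_,
    Nat.find hex, ?_, ?_, ?_⟩
  · rw [hcoe, leadingCoeff_algebraMap_mul, hd, inv_mul_cancel₀ ha]
  · intro v
    rw [v.ord_mul hψ₀ (pow_ne_zero _ hd'), ord_pow, ord_algebraMap, mul_zero, add_zero]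
    exact hb₀ v
  · intro ψ' r' hψ' hb'
    exact Nat.find_min' hex ⟨ψ', hψ', hb'⟩
  · intro ψ' hψ' hb'
    rw [hcoe, order_algebraMap_mul hdm]
    have := hmax _ ⟨ψ', hψ', hb', rfl⟩
    rw [← hn] at this
    exact this

end exist

end Fermat.Agent.ESlib
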