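import Mathlib
import Fermat.Prelude.Def_AlgebraicCurve_DivisorClassGroup

/-!
# ES, part B4: Taylor expansion at a place with residue field `K`
-/

set_option autoImplicit false
set_option linter.unusedSectionVars false

open AlgebraicCurve

namespace Fermat.Agent.ESlib

section taylor

open PowerSeries

variable {K O : Type*} [Field K] [CommRing O] [IsDomain O] [Algebra K O] (π : O)

/-- `P` is the `π`-adic expansion of `f` -/
def Approx (f : O) (P : K⟦X⟧) : Prop :=
  ∀ n : ℕ, π ^ n ∣ f - Polynomial.aeval π (trunc n P)

variable {π}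

theorem Approx.unique (hπ0 : π ≠ 0) (hπu : ¬ IsUnit π) {f : O} {P Q : K⟦X⟧}
    (hP : Approx π f P) (hQ : Approx π f Q) : P = Q := by
  have key : ∀ k : ℕ, ∀ i < k, coeff i P = coeff i Q := by
    intro k
    induction k with
    | zero => intro i hi; omega
    | succ k ih =>
      intro i hi
      rcases Nat.lt_succ_iff_lt_or_eq.1 hi with h | rfl
      · exact ih i h
      · have htr : trunc i P = trunc i Q := by
          ext d
          rw [coeff_trunc, coeff_trunc]
          split_ifs with h
          · exact ih d h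
          · rfl
        have h1 : π ^ (i + 1) ∣ Polynomial.aeval π (trunc (i + 1) P)
            - Polynomial.aeval π (trunc (i + 1) Q) := by
          have := dvd_sub (hQ (i + 1)) (hP (i + 1))
          convert this using 1
          ring
        rw [trunc_succ, trunc_succ, htr, map_add, map_add, add_sub_add_left_eq_sub,
          Polynomial.aeval_monomial, Polynomial.aeval_monomial, ← sub_mul, ← map_sub, pow_succ,
          mul_comm] at h1
        have h2 : π ∣ algebraMap K O (coeff i P - coeff i Q) :=
          (mul_dvd_mul_iff_right (pow_ne_zero i hπ0)).1 h1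
        by_contra hne
        have hu : IsUnit (algebraMap K O (coeff i P - coeff i Q)) :=
          (IsUnit.mk0 _ (sub_ne_zero.2 hne)).map (algebraMap K O)
        exact hπu (isUnit_of_dvd_unit h2 hu)
  ext i
  exact key (i + 1) i (Nat.lt_succ_self i)

theorem Approx.add {f g : O} {P Q : K⟦X⟧} (hP : Approx π f P) (hQ : Approx π g Q) :
    Approx π (f + g) (P + Q) := by
  intro n
  have : trunc n (P + Q) = trunc n P + trunc n Q := map_add (trunc n) P Q
  rw [this, map_add]
  have := dvd_add (hP n) (hQ n)
  convert this using 1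
  ring

theorem X_pow_dvd_trunc_mul (n : ℕ) (P Q : K⟦X⟧) :
    (Polynomial.X : Polynomial K) ^ n ∣ trunc n P * trunc n Q - trunc n (P * Q) := by
  rw [Polynomial.X_pow_dvd_iff]
  intro d hd
  rw [Polynomial.coeff_sub, coeff_trunc, if_pos hd, Polynomial.coeff_mul, PowerSeries.coeff_mul,
    sub_eq_zero]
  refine Finset.sum_congr rfl fun x hx => ?_
  have hx' := Finset.HasAntidiagonal.mem_antidiagonal.1 hx
  rw [coeff_trunc, coeff_trunc, if_pos (by omega), if_pos (by omega)]

theorem Approx.mul {f g : O} {P Q : K⟦X⟧} (hP : Approx π f P) (hQ : Approx π g Q) :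
    Approx π (f * g) (P * Q) := by
  intro n
  have h1 : π ^ n ∣ Polynomial.aeval π (trunc n P * trunc n Q - trunc n (P * Q)) := by
    have := map_dvd (Polynomial.aeval (R := K) π) (X_pow_dvd_trunc_mul n P Q)
    rwa [map_pow, Polynomial.aeval_X] at this
  rw [map_sub, map_mul] at h1
  obtain ⟨a, ha⟩ := hP n
  obtain ⟨b, hb⟩ := hQ n
  obtain ⟨c, hc⟩ := h1
  refine ⟨a * g + Polynomial.aeval π (trunc n P) * b + c, ?_⟩
  linear_combination g * ha + Polynomial.aeval π (trunc n P) * hb + hc

theorem approx_algebraMap (c : K) : Approx π (algebraMap K O c) (C c) := by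
  intro n
  cases n with
  | zero => simp
  | succ n => rw [trunc_C, Polynomial.aeval_C, sub_self]; exact dvd_zero _

theorem approx_self : Approx π π (X : K⟦X⟧) := by
  intro n
  match n with
  | 0 => simp
  | 1 => simp
  | (n + 2) => rw [trunc_X, Polynomial.aeval_X, sub_self]; exact dvd_zero _

theorem exists_approx (hres : ∀ z : O, ∃ c : K, π ∣ z - algebraMap K O c) (f : O) :
    ∃ P : K⟦X⟧, Approx π f P := by
  choose r hr using hres
  choose S hS using hr
  refine ⟨PowerSeries.mk fun n => r (S^[n] f), ?_⟩
  have key : ∀ n : ℕ, f - Polynomial.aeval π (trunc n (PowerSeries.mk fun n => r (S^[n] f)))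
      = π ^ n * S^[n] f := by
    intro n
    induction n with
    | zero => simp
    | succ n ih =>
      rw [trunc_succ, map_add, Polynomial.aeval_monomial, coeff_mk, Function.iterate_succ_apply',
        pow_succ]
      linear_combination ih + π ^ n * hS (S^[n] f)
  intro n
  exact ⟨_, key n⟩

/-- the Taylor expansion homomorphism -/
theorem exists_taylor (hπ0 : π ≠ 0) (hπu : ¬ IsUnit π)
    (hres : ∀ z : O, ∃ c : K, π ∣ z - algebraMap K O c)
    (hsep : ∀ z : O, (∀ n : ℕ, π ^ n ∣ z) → z = 0) :
    ∃ T : O →ₐ[K] K⟦X⟧, Function.Injective T ∧ T π = X := by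
  choose T hT using exists_approx (K := K) hres
  have huniq : ∀ {f : O} {P : K⟦X⟧}, Approx π f P → T f = P :=
    fun h => Approx.unique hπ0 hπu (hT _) h
  let Th : O →ₐ[K] K⟦X⟧ :=
    { toFun := T
      map_one' := by
        have := huniq (approx_algebraMap (π := π) (1 : K))
        rwa [map_one, map_one] at this
      map_mul' := fun f g => huniq ((hT f).mul (hT g))
      map_zero' := by
        have := huniq (approx_algebraMap (π := π) (0 : K))
        rwa [map_zero, map_zero] at this
      map_add' := fun f g => huniq ((hT f).add (hT g))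
      commutes' := fun c => huniq (approx_algebraMap c) }
  refine ⟨Th, ?_, huniq approx_self⟩
  rw [injective_iff_map_eq_zero]
  intro f hf
  apply hsep
  intro n
  have h1 : T f = 0 := hf
  have := hT f n
  rw [h1] at this
  simpa using this

end taylor

variable {K F : Type*} [Field K] [Field F] [Algebra K F]

/-- **B4.** A place `v` of `F / K` with residue field `K` is induced by an embedding of `F` into
`K((t))`. -/
theorem exists_emb_of_place_of_const (v : Place K F)
    (hres : ∀ z : F, z ∈ v.toValuationSubring →
      ∃ c : K, z = algebraMap K F c ∨ 0 < v.ord (z - algebraMap K F c)) :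
    ∃ ε : F →ₐ[K] LaurentSeries K, ∀ f : F, f ≠ 0 → (ε f).order = v.ord f := by
  obtain ⟨π, hπ⟩ := IsDiscreteValuationRing.exists_irreducible v.toValuationSubring
  have hπF : (π : F) ≠ 0 := by
    simpa [ne_eq, ZeroMemClass.coe_eq_zero] using hπ.ne_zero
  -- positive order implies divisibility by `π`
  have hdvd : ∀ w : v.toValuationSubring, 0 < v.ord (w : F) → π ∣ w := by
    intro w hw
    have hw0 : (w : F) ≠ 0 := by
      intro h
      rw [h, Place.ord_zero] at hw
      exact lt_irrefl _ hw
    obtain ⟨u, hu⟩ := v.exists_unit_mul_zpow hw0 hπ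
    obtain ⟨n, hn⟩ := Int.eq_ofNat_of_zero_le hw.le
    have hn1 : n ≠ 0 := by
      rintro rfl
      rw [hn] at hw
      exact lt_irrefl _ hw
    obtain ⟨k, rfl⟩ := Nat.exists_eq_succ_of_ne_zero hn1
    refine ⟨u * π ^ k, ?_⟩
    apply Subtype.ext
    rw [hu, hn, zpow_natCast]
    push_cast
    rw [pow_succ]
    ring
  have hres' : ∀ z : v.toValuationSubring, ∃ c : K, π ∣ z - algebraMap K v.toValuationSubring c := by
    intro z
    obtain ⟨c, hc | hc⟩ := hres z z.2
    · refine ⟨c, ?_⟩
      have : z - algebraMap K v.toValuationSubring c = 0 := by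
        apply Subtype.ext
        push_cast
        rw [Place.coe_algebraMap, hc, sub_self]
      rw [this]
      exact dvd_zero _
    · exact ⟨c, hdvd _ (by push_cast; rw [Place.coe_algebraMap]; exact hc)⟩
  have hsep : ∀ z : v.toValuationSubring, (∀ n : ℕ, π ^ n ∣ z) → z = 0 := by
    intro z hz
    by_contra hz0
    obtain ⟨n, u, hu⟩ := IsDiscreteValuationRing.eq_unit_mul_pow_irreducible hz0 hπ
    have h1 := hz (n + 1)
    rw [hu, pow_succ, mul_comm (u : v.toValuationSubring)] at h1
    have h2 : π ∣ (u : v.toValuationSubring) :=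
      (mul_dvd_mul_iff_left (pow_ne_zero n hπ.ne_zero)).1 h1
    exact hπ.not_isUnit (isUnit_of_dvd_unit h2 u.isUnit)
  obtain ⟨T, hTinj, hTπ⟩ := exists_taylor (K := K) hπ.ne_zero hπ.not_isUnit hres' hsep
  let g : v.toValuationSubring →ₐ[K] LaurentSeries K :=
    { toRingHom := (HahnSeries.ofPowerSeries ℤ K).comp T.toRingHom
      commutes' := by
        intro c
        change HahnSeries.ofPowerSeries ℤ K (T (algebraMap K _ c)) = _
        rw [AlgHom.commutes, ← HahnSeries.algebraMap_apply'] }
  have hg_apply : ∀ z, g z = HahnSeries.ofPowerSeries ℤ K (T z) := fun z => rfl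
  have hg : Function.Injective g := by
    intro a b hab
    exact hTinj (HahnSeries.ofPowerSeries_injective hab)
  refine ⟨IsFractionRing.liftAlgHom hg, ?_⟩
  have hlift : ∀ z : v.toValuationSubring,
      (IsFractionRing.liftAlgHom hg : F →ₐ[K] LaurentSeries K) (z : F) = g z := by
    intro z
    rw [IsFractionRing.liftAlgHom_apply]
    exact IsFractionRing.lift_algebraMap hg z
  intro f hf
  obtain ⟨u, hu⟩ := v.exists_unit_mul_zpow hf hπ
  have hgu : (g (u : v.toValuationSubring)).order = 0 := by
    have h1 : g (u : v.toValuationSubring) * g ((u⁻¹ : v.toValuationSubringˣ) : v.toValuationSubring) = 1 := by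
      rw [← map_mul, Units.mul_inv, map_one]
    have hne1 : g (u : v.toValuationSubring) ≠ 0 := left_ne_zero_of_mul_eq_one h1
    have hne2 : g ((u⁻¹ : v.toValuationSubringˣ) : v.toValuationSubring) ≠ 0 :=
      right_ne_zero_of_mul_eq_one h1
    have h2 := HahnSeries.order_mul hne1 hne2
    rw [h1, HahnSeries.order_one] at h2
    have hnonneg : ∀ z : v.toValuationSubring, g z ≠ 0 → 0 ≤ (g z).order := by
      intro z hz
      rw [HahnSeries.le_order_iff_forall hz]
      intro j hj
      rw [hg_apply, HahnSeries.ofPowerSeries_apply]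
      apply HahnSeries.embDomain_of_notMem_range
      rintro ⟨n, hn⟩
      simp at hn
      omega
    have := hnonneg _ hne1
    have := hnonneg _ hne2
    omega
  have hgu0 : g (u : v.toValuationSubring) ≠ 0 := by
    intro h
    have := hg (h.trans (map_zero g).symm)
    exact u.ne_zero this
  conv_lhs => rw [hu]
  rw [map_mul, map_zpow₀, hlift, hlift, hg_apply π, hTπ, HahnSeries.ofPowerSeries_X,
    ← RatFunc.single_zpow, HahnSeries.order_mul hgu0 (by simp), hgu,
    HahnSeries.order_single one_ne_zero, zero_add]

end Fermat.Agent.ESlib
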